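import Fermat.Agent.BeurlingPrimes.Nonvanishing

/-!
# The prime number theorem for generalized primes

`ψ_P u ∼ e ^ u` by the Wiener–Ikehara theorem; the prime powers contribute `O (e ^ (3 u / 4))`, and
`θ_P u` is compared with `u π_P u`.
-/

set_option autoImplicit false

noncomputable section

namespace FA.Beurling

open Filter Set Complex
open FA.WienerIkehara (weightSum)
open scoped Topology

variable {p : ℕ → ℝ} {A θ C : ℝ}

theorem tendsto_psi (h : Regular p A θ C) :
    Tendsto (fun u => weightSum (fun q : ℕ × ℕ => ((q.2 : ℝ) + 1) * Real.log (p q.1))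
      (fun q => Real.log (p q.1)) u * Real.exp (-u)) atTop (𝓝 1) :=
  FA.WienerIkehara.tendsto_weightSum
    (fun q => mul_nonneg (by positivity) (Real.log_pos (h.one_lt _)).le)
    (fun q => (Real.log_pos (h.one_lt _)).le) (fun _ hσ => summable_primePow h hσ)
    (continuousOn_logDeriv h) fun s hs => by
      change _ = lambdaSeries p s - _
      rw [lambdaSeries_eq h hs, ofReal_one]
      ring

theorem finite_primes (h : Regular p A θ C) (u : ℝ) : {i | Real.log (p i) ≤ u}.Finite := by
  refine ((h.finite u).preimage (f := fun i => Finsupp.single i 1)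
    (Finsupp.single_left_injective one_ne_zero).injOn).subset fun i hi => ?_
  simpa [logNorm_single] using hi

theorem exists_pos_le_log (h : Regular p A θ C) : ∃ c, 0 < c ∧ ∀ i, c ≤ Real.log (p i) := by
  obtain ⟨c, hc⟩ : ∃ c, c = (insert (1 : ℝ) ((finite_primes h 1).toFinset.image
      fun i => Real.log (p i))).min' (Finset.insert_nonempty _ _) := ⟨_, rfl⟩
  refine ⟨c, ?_, fun i => ?_⟩
  · rw [hc, Finset.lt_min'_iff]
    intro x hx
    rw [Finset.mem_insert, Finset.mem_image] at hx
    rcases hx with rfl | ⟨i, -, rfl⟩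
    · exact one_pos
    · exact Real.log_pos (h.one_lt i)
  · rcases le_total (Real.log (p i)) 1 with hi | hi
    · exact hc ▸ Finset.min'_le _ _ (Finset.mem_insert_of_mem (Finset.mem_image.2
        ⟨i, (finite_primes h 1).mem_toFinset.2 hi, rfl⟩))
    · exact le_trans (hc ▸ Finset.min'_le _ _ (Finset.mem_insert_self _ _)) hi

/-- `θ_P u`. -/
def theta (p : ℕ → ℝ) (u : ℝ) : ℝ :=
  weightSum (fun i => Real.log (p i)) (fun i => Real.log (p i)) u

theorem theta_eq_sum (h : Regular p A θ C) (u : ℝ) :
    theta p u = ∑ i ∈ (finite_primes h u).toFinset, Real.log (p i) := by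
  rw [theta, weightSum, tsum_eq_sum
    (f := fun i => if Real.log (p i) ≤ u then Real.log (p i) else 0)
    (s := (finite_primes h u).toFinset) fun i hi =>
      if_neg fun hle => hi ((finite_primes h u).mem_toFinset.2 hle)]
  exact Finset.sum_congr rfl fun i hi =>
    if_pos (show Real.log (p i) ≤ u from (finite_primes h u).mem_toFinset.1 hi)

theorem tendsto_theta (h : Regular p A θ C) :
    Tendsto (fun u => theta p u * Real.exp (-u)) atTop (𝓝 1) := by
  obtain ⟨c, hc0, hc⟩ := exists_pos_le_log h
  obtain ⟨K, hK⟩ : ∃ K : ℕ × ℕ → ℝ, K = fun q =>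
      Real.log (p q.1) * Real.exp (-(3 / 4 * (((q.2 : ℝ) + 2) * Real.log (p q.1)))) := ⟨_, rfl⟩
  have hK0 : ∀ q, 0 ≤ K q := fun q => by
    rw [hK]
    exact mul_nonneg (Real.log_pos (h.one_lt _)).le (Real.exp_pos _).le
  have hKsum : Summable K := by
    have h1 : Summable fun i => Real.log (p i) * Real.exp (-(3 / 2 * Real.log (p i))) :=
      ((summable_primePow h (show (1 : ℝ) < 3 / 2 by norm_num)).comp_injective
        (show Function.Injective fun i : ℕ => (i, 0) from fun a b hab => congrArg Prod.fst hab)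
          ).congr fun i => by simp
    have h2 : Summable fun k : ℕ => Real.exp (-(3 / 4 * c)) ^ k :=
      summable_geometric_of_lt_one (Real.exp_pos _).le (Real.exp_lt_one_iff.2 (by linarith))
    refine (h1.mul_of_nonneg h2 (fun i => mul_nonneg (Real.log_pos (h.one_lt _)).le
      (Real.exp_pos _).le) fun k => pow_nonneg (Real.exp_pos _).le k).of_nonneg_of_le hK0
        fun q => ?_
    rw [hK, mul_assoc, ← Real.exp_nat_mul, ← Real.exp_add]
    refine mul_le_mul_of_nonneg_left (Real.exp_le_exp.2 ?_) (Real.log_pos (h.one_lt _)).le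
    nlinarith [mul_le_mul_of_nonneg_left (hc q.1) (show (0 : ℝ) ≤ (q.2 : ℝ) by positivity)]
  obtain ⟨F, hF⟩ : ∃ F : ℝ → ℕ × ℕ → ℝ, F = fun u q =>
      if ((q.2 : ℝ) + 1) * Real.log (p q.1) ≤ u then Real.log (p q.1) else 0 := ⟨_, rfl⟩
  have hF0 : ∀ u q, 0 ≤ F u q := fun u q => by
    rw [hF]; dsimp only; split_ifs <;> simp [(Real.log_pos (h.one_lt q.1)).le]
  have hkey : ∀ u, 0 ≤ weightSum (fun q : ℕ × ℕ => ((q.2 : ℝ) + 1) * Real.log (p q.1))
      (fun q => Real.log (p q.1)) u - theta p u ∧
      weightSum (fun q : ℕ × ℕ => ((q.2 : ℝ) + 1) * Real.log (p q.1))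
        (fun q => Real.log (p q.1)) u - theta p u ≤ Real.exp (3 / 4 * u) * ∑' q, K q := by
    intro u
    have hFs : Summable (F u) := hF ▸ FA.WienerIkehara.summable_term
      (fun q => (Real.log_pos (h.one_lt _)).le) (fun _ hσ => summable_primePow h hσ) u
    have hrest : Summable fun q : ℕ × ℕ => F u (q.1, q.2 + 1) :=
      hFs.comp_injective fun a b hab => by simpa [Prod.ext_iff] using hab
    have e : weightSum (fun q : ℕ × ℕ => ((q.2 : ℝ) + 1) * Real.log (p q.1))
        (fun q => Real.log (p q.1)) u = theta p u + ∑' q : ℕ × ℕ, F u (q.1, q.2 + 1) := by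
      have e0 : weightSum (fun q : ℕ × ℕ => ((q.2 : ℝ) + 1) * Real.log (p q.1))
          (fun q => Real.log (p q.1)) u = ∑' q, F u q := by rw [hF]; rfl
      have e1 : theta p u = ∑' i, F u (i, 0) := by
        rw [hF]; simp [theta, weightSum]
      rw [e0, e1, hrest.tsum_prod' fun i => hrest.comp_injective fun a b hab => by simpa using hab,
        hFs.tsum_prod' fun i => hFs.comp_injective fun a b hab => by simpa using hab]
      have hA : Summable fun i => F u (i, 0) :=
        hFs.comp_injective fun a b hab => by simpa using hab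
      refine (tsum_congr fun i => ?_).trans (hA.tsum_add hrest.prod)
      exact (hFs.comp_injective fun a b hab => by simpa using hab :
        Summable fun k => F u (i, k)).tsum_eq_zero_add
    rw [e, add_sub_cancel_left, ← tsum_mul_left]
    refine ⟨tsum_nonneg fun q => hF0 u _, hrest.tsum_le_tsum (fun q => ?_) (hKsum.mul_left _)⟩
    rw [hF, hK]
    dsimp only
    push_cast
    split_ifs with hle
    · rw [mul_left_comm, ← Real.exp_add]
      refine le_mul_of_one_le_right (Real.log_pos (h.one_lt _)).le (Real.one_le_exp ?_)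
      linarith
    · exact mul_nonneg (Real.exp_pos _).le
        (mul_nonneg (Real.log_pos (h.one_lt _)).le (Real.exp_pos _).le)
  have h0 : Tendsto (fun u => (weightSum (fun q : ℕ × ℕ => ((q.2 : ℝ) + 1) * Real.log (p q.1))
      (fun q => Real.log (p q.1)) u - theta p u) * Real.exp (-u)) atTop (𝓝 0) := by
    refine squeeze_zero (fun u => mul_nonneg (hkey u).1 (Real.exp_pos _).le)
      (fun u => mul_le_mul_of_nonneg_right (hkey u).2 (Real.exp_pos _).le) ?_
    have h1 : Tendsto (fun u : ℝ => Real.exp (-(1 / 4 * u))) atTop (𝓝 0) :=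
      Real.tendsto_exp_atBot.comp (tendsto_neg_atTop_atBot.comp
        (tendsto_id.const_mul_atTop (by norm_num)))
    refine ((h1.const_mul (∑' q, K q)).congr fun u => ?_).trans_eq (by simp)
    rw [mul_right_comm, ← Real.exp_add, mul_comm]
    ring_nf
  have := (tendsto_psi h).sub h0
  rw [sub_zero] at this
  exact this.congr fun u => by ring

/-- `π_P u`. -/
def primeCount (p : ℕ → ℝ) (u : ℝ) : ℝ := Nat.card {i // Real.log (p i) ≤ u}

theorem primeCount_eq (h : Regular p A θ C) (u : ℝ) :
    primeCount p u = (finite_primes h u).toFinset.card := by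
  rw [primeCount, Nat.cast_inj]
  exact Nat.card_eq_card_finite_toFinset (finite_primes h u)

theorem theta_le (h : Regular p A θ C) (u : ℝ) : theta p u ≤ u * primeCount p u := by
  rw [theta_eq_sum h, primeCount_eq h, mul_comm, ← nsmul_eq_mul, ← Finset.sum_const]
  exact Finset.sum_le_sum fun i hi => (finite_primes h u).mem_toFinset.1 hi

theorem le_theta (h : Regular p A θ C) {v u : ℝ} (hv : v ≤ u) :
    v * (primeCount p u - primeCount p v) ≤ theta p u := by
  have hsub : (finite_primes h v).toFinset ⊆ (finite_primes h u).toFinset :=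
    Set.Finite.toFinset_subset_toFinset.2 fun i hi => le_trans hi hv
  rw [theta_eq_sum h, primeCount_eq h, primeCount_eq h, mul_comm, ← Finset.sum_sdiff hsub,
    ← Nat.cast_sub (Finset.card_le_card hsub), ← Finset.card_sdiff_of_subset hsub]
  refine le_add_of_le_of_nonneg ?_ (Finset.sum_nonneg fun i _ => (Real.log_pos (h.one_lt i)).le)
  rw [← nsmul_eq_mul, ← Finset.sum_const]
  refine Finset.sum_le_sum fun i hi => (not_le.1 fun hle => ?_).le
  exact (Finset.mem_sdiff.1 hi).2 ((finite_primes h v).mem_toFinset.2 hle)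

theorem tendsto_primeCount (h : Regular p A θ C) :
    Tendsto (fun u => primeCount p u * u * Real.exp (-u)) atTop (𝓝 1) := by
  obtain ⟨c, hc0, hc⟩ := exists_pos_le_log h
  have hθ := tendsto_theta h
  have hsmall : ∀ v, c * primeCount p v ≤ theta p v := fun v => by
    rw [theta_eq_sum h, primeCount_eq h, mul_comm, ← nsmul_eq_mul]
    exact Finset.card_nsmul_le_sum _ _ _ fun i _ => hc i
  refine tendsto_order.2 ⟨fun b hb => ?_, fun b hb => ?_⟩
  · filter_upwards [hθ.eventually (eventually_gt_nhds hb)] with u hu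
    refine hu.trans_le (mul_le_mul_of_nonneg_right ?_ (Real.exp_pos _).le)
    rw [mul_comm]
    exact theta_le h u
  obtain ⟨δ, hδb, hδ0, hδ1⟩ : ∃ δ : ℝ, 1 / (1 - δ) < b ∧ 0 < δ ∧ δ < 1 := by
    refine ⟨(b - 1) / (2 * b), ?_, by positivity, ?_⟩
    · have : 0 < b := by linarith
      rw [div_lt_iff₀ (by rw [sub_pos, div_lt_one (by linarith)]; linarith)]
      field_simp
      linarith
    · rw [div_lt_one (by linarith)]; linarith
  have h1 : Tendsto (fun u => (1 / (1 - δ)) * (theta p u * Real.exp (-u)) +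
      2 / c * (u * Real.exp (-(δ * u)))) atTop (𝓝 (1 / (1 - δ) * 1 + 2 / c * 0)) := by
    refine (hθ.const_mul _).add (Tendsto.const_mul _ ?_)
    have h := tendsto_rpow_mul_exp_neg_mul_atTop_nhds_zero 1 δ hδ0
    simpa [Real.rpow_one] using h
  rw [mul_one, mul_zero, add_zero] at h1
  filter_upwards [h1.eventually (eventually_lt_nhds hδb), eventually_ge_atTop (0 : ℝ),
    (tendsto_id.const_mul_atTop (sub_pos.2 hδ1)).eventually (hθ.eventually
      (eventually_lt_nhds (show (1 : ℝ) < 2 by norm_num)))] with u hu hu0 hv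
  refine lt_of_le_of_lt ?_ hu
  simp only [id_eq] at hv
  have hd : 0 < 1 - δ := sub_pos.2 hδ1
  obtain ⟨v, hvdef⟩ : ∃ v, v = (1 - δ) * u := ⟨_, rfl⟩
  rw [← hvdef] at hv
  have h2 := le_theta h (show v ≤ u by rw [hvdef]; nlinarith)
  have h3 : primeCount p v * Real.exp (-u) ≤ 2 / c * Real.exp (-(δ * u)) := by
    rw [div_mul_eq_mul_div, le_div_iff₀ hc0]
    calc primeCount p v * Real.exp (-u) * c = c * primeCount p v * Real.exp (-u) := by ring
      _ ≤ theta p v * Real.exp (-u) := mul_le_mul_of_nonneg_right (hsmall v) (Real.exp_pos _).le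
      _ = theta p v * Real.exp (-v) * Real.exp (-(δ * u)) := by
          rw [mul_assoc, ← Real.exp_add, hvdef]
          ring_nf
      _ ≤ 2 * Real.exp (-(δ * u)) := mul_le_mul_of_nonneg_right hv.le (Real.exp_pos _).le
  calc primeCount p u * u * Real.exp (-u)
      = 1 / (1 - δ) * (v * (primeCount p u - primeCount p v) * Real.exp (-u)) +
          primeCount p v * Real.exp (-u) * u := by
        rw [hvdef]; field_simp; ring
    _ ≤ 1 / (1 - δ) * (theta p u * Real.exp (-u)) + 2 / c * Real.exp (-(δ * u)) * u := by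
        gcongr
    _ = _ := by ring

theorem exp_logNorm {p : ℕ → ℝ} (hp : ∀ i, 1 < p i) (e : ℕ →₀ ℕ) :
    Real.exp (logNorm p e) = e.prod fun i k => p i ^ k := by
  rw [logNorm, Finsupp.sum, Real.exp_sum, Finsupp.prod]
  exact Finset.prod_congr rfl fun i _ => by
    rw [Real.exp_nat_mul, Real.exp_log (one_pos.trans (hp i))]

/-- **Beurling's prime number theorem.** -/
theorem beurling {p : ℕ → ℝ} (hp : ∀ i, 1 < p i) {A θ C : ℝ} (hA : 0 < A) (hθ : θ < 1)
    (hN : ∀ x : ℝ, 1 ≤ x →
      |(Nat.card {e : ℕ →₀ ℕ // (e.prod fun i k => p i ^ k) ≤ x} : ℝ) - A * x| ≤ C * x ^ θ) :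
    Tendsto (fun x : ℝ => (Nat.card {i // p i ≤ x} : ℝ) * Real.log x / x) atTop (𝓝 1) := by
  have hiff : ∀ (e : ℕ →₀ ℕ) (u : ℝ),
      (e.prod fun i k => p i ^ k) ≤ Real.exp u ↔ logNorm p e ≤ u := fun e u => by
    rw [← exp_logNorm hp, Real.exp_le_exp]
  have hcount : ∀ u, (Nat.card {e : ℕ →₀ ℕ // (e.prod fun i k => p i ^ k) ≤ Real.exp u} : ℝ) =
      count p u := fun u => by
    rw [count]
    congr 1
    exact Nat.card_congr (Equiv.subtypeEquivRight fun e => hiff e u)
  have hC : ∀ u, 0 ≤ u → |count p u - A * Real.exp u| ≤ C * Real.exp (θ * u) := fun u hu => by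
    have h := hN (Real.exp u) (Real.one_le_exp hu)
    rwa [hcount, ← Real.exp_mul, mul_comm u θ] at h
  have hfin : ∀ u, {e | logNorm p e ≤ u}.Finite := by
    intro u
    have hlim : Tendsto (fun v : ℝ => Real.exp ((1 - θ) * v)) atTop atTop :=
      Real.tendsto_exp_atTop.comp (tendsto_id.const_mul_atTop (sub_pos.2 hθ))
    obtain ⟨v, hv, hv0, huv⟩ := ((hlim.eventually_gt_atTop (C / A)).and
      ((eventually_ge_atTop (0 : ℝ)).and (eventually_ge_atTop u))).exists
    refine Set.Finite.subset ?_ fun e (he : logNorm p e ≤ u) => he.trans huv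
    by_contra hinf
    have h0 : count p v = 0 := by
      rw [count, Nat.cast_eq_zero]
      exact @Nat.card_eq_zero_of_infinite _ (Set.infinite_coe_iff.2 hinf)
    have h1 := (abs_le.1 (hC v hv0)).1
    rw [h0, div_lt_iff₀ hA] at *
    have h2 : C * Real.exp (θ * v) < A * Real.exp v := by
      calc C * Real.exp (θ * v) < Real.exp ((1 - θ) * v) * A * Real.exp (θ * v) :=
            mul_lt_mul_of_pos_right hv (Real.exp_pos _)
        _ = A * Real.exp v := by
            rw [mul_right_comm, ← Real.exp_add, mul_comm]; ring_nf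
    linarith
  have h : Regular p A (max θ 0) (max C 0) :=
    { one_lt := hp
      A_pos := hA
      theta_nonneg := le_max_right _ _
      theta_lt := max_lt hθ one_pos
      finite := hfin
      count_le := fun u hu => (hC u hu).trans (mul_le_mul (le_max_left _ _)
        (Real.exp_le_exp.2 (mul_le_mul_of_nonneg_right (le_max_left _ _) hu)) (Real.exp_pos _).le
        (le_max_right _ _)) }
  refine ((tendsto_primeCount h).comp Real.tendsto_log_atTop).congr' ?_
  filter_upwards [eventually_gt_atTop (0 : ℝ)] with x hx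
  rw [Function.comp_apply, primeCount, Real.exp_neg, Real.exp_log hx, ← div_eq_mul_inv]
  congr 3
  exact Nat.card_congr (Equiv.subtypeEquivRight fun i =>
    Real.log_le_log_iff (one_pos.trans (hp i)) hx)

end FA.Beurling
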