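import Fermat.Agent.BeurlingPrimes.Zeta

/-!
# No zeros on the line `re s = 1`

Where the zeta function has a zero, `Λ = 1 / (s - 1) - H' / H` has a pole with residue minus the
order; none can be for `1 < re s`, where `Λ` is bounded, and `3 + 4 cos + cos 2 ≥ 0` excludes the
line `re s = 1`.
-/

set_option autoImplicit false

noncomputable section

namespace FA.Beurling

open Filter Set Complex
open scoped Topology

variable {p : ℕ → ℝ} {A θ C : ℝ}

theorem exists_order (h : Regular p A θ C) {z₀ : ℂ} (hz : θ < z₀.re) :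
    ∃ (m : ℕ) (g : ℂ → ℂ), AnalyticAt ℂ g z₀ ∧ g z₀ ≠ 0 ∧
      ∀ᶠ z in 𝓝 z₀, entireNum p A z = (z - z₀) ^ m • g z := by
  refine (analyticAt_entireNum h hz).exists_eventuallyEq_pow_smul_nonzero_iff.2 fun h0 => ?_
  have h1 := AnalyticOnNhd.eqOn_zero_of_preconnected_of_eventuallyEq_zero
    (show AnalyticOnNhd ℂ (entireNum p A) {s | θ < s.re} from
      fun s hs => analyticAt_entireNum h hs) (convex_halfSpace_re_gt θ).isPreconnected
    hz h0 (show θ < (1 : ℂ).re by simpa using h.theta_lt)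
  rw [entireNum_one, Pi.zero_apply, ofReal_eq_zero] at h1
  exact h.A_pos.ne' h1

/-- The logarithmic derivative near a point has residue the order. -/
theorem exists_residue (h : Regular p A θ C) {z₀ : ℂ} (hz : θ < z₀.re) :
    ∃ m : ℕ, (m = 0 → entireNum p A z₀ ≠ 0) ∧
      (∀ᶠ z in 𝓝[≠] z₀, entireNum p A z ≠ 0) ∧
      Tendsto (fun z => (z - z₀) * (deriv (entireNum p A) z / entireNum p A z)) (𝓝[≠] z₀)
        (𝓝 (m : ℂ)) := by
  obtain ⟨m, g, hg, hg0, heq⟩ := exists_order h hz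
  refine ⟨m, fun hm => ?_, ?_, ?_⟩
  · rw [heq.self_of_nhds, hm]
    simpa using hg0
  · filter_upwards [nhdsWithin_le_nhds (heq.and (hg.continuousAt.eventually_ne hg0)),
      self_mem_nhdsWithin] with z ⟨hz1, hz2⟩ (hz3 : z ≠ z₀)
    rw [hz1, smul_eq_mul]
    exact mul_ne_zero (pow_ne_zero _ (sub_ne_zero.2 hz3)) hz2
  have hlim : Tendsto (fun z => (m : ℂ) + (z - z₀) * (deriv g z / g z)) (𝓝[≠] z₀) (𝓝 (m : ℂ)) := by
    have hc : ContinuousAt (fun z => (m : ℂ) + (z - z₀) * (deriv g z / g z)) z₀ :=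
      continuousAt_const.add ((continuousAt_id.sub continuousAt_const).mul
        (hg.deriv.continuousAt.div hg.continuousAt hg0))
    simpa using hc.tendsto.mono_left (nhdsWithin_le_nhds (s := {z₀}ᶜ))
  refine hlim.congr' ?_
  filter_upwards [nhdsWithin_le_nhds ((heq.eventually_nhds.and
    (hg.continuousAt.eventually_ne hg0)).and hg.eventually_analyticAt),
    self_mem_nhdsWithin] with z ⟨⟨hz1, hz2⟩, hz3⟩ (hz4 : z ≠ z₀)
  have hd : HasDerivAt (fun w => (w - z₀) ^ m • g w)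
      ((m : ℂ) * (z - z₀) ^ (m - 1) * g z + (z - z₀) ^ m * deriv g z) z := by
    refine ((((hasDerivAt_id z).sub_const z₀).pow m).mul
      hz3.differentiableAt.hasDerivAt).congr_deriv ?_
    simp
  have hH : HasDerivAt (entireNum p A) _ z := hd.congr_of_eventuallyEq hz1
  rw [hH.deriv, hz1.self_of_nhds, smul_eq_mul]
  have hne := sub_ne_zero.2 hz4
  rcases m with _ | m
  · simp
  · rw [pow_succ, Nat.add_sub_cancel]
    field_simp

theorem deriv_entireNum (h : Regular p A θ C) {s : ℂ} (hs : 1 < s.re) :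
    deriv (entireNum p A) s = (1 / (s - 1) - lambdaSeries p s) * entireNum p A s := by
  have hs1 : (s - 1 : ℂ) ≠ 0 := fun e => by
    rw [sub_eq_zero] at e; rw [e, Complex.one_re] at hs; exact lt_irrefl _ hs
  have hev : entireNum p A =ᶠ[𝓝 s] fun z => (z - 1) * zeta p z := by
    filter_upwards [(isOpen_lt continuous_const Complex.continuous_re).mem_nhds hs] with z hz
    exact entireNum_eq h hz
  rw [hev.deriv_eq, (((hasDerivAt_id' s).sub_const 1).fun_mul (deriv_zeta h hs)).deriv,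
    entireNum_eq h hs]
  field_simp
  ring

theorem norm_lambdaSeries_le (h : Regular p A θ C) {σ : ℝ} (hσ : 1 < σ) {s : ℂ} (hs : σ ≤ s.re) :
    ‖lambdaSeries p s‖ ≤
      ∑' q : ℕ × ℕ, Real.log (p q.1) * Real.exp (-(σ * (((q.2 : ℝ) + 1) * Real.log (p q.1)))) := by
  refine (norm_tsum_le_tsum_norm (summable_norm_lambda h (hσ.trans_le hs))).trans
    ((summable_norm_lambda h (hσ.trans_le hs)).tsum_le_tsum (fun q => ?_) (summable_primePow h hσ))
  have hL := (Real.log_pos (h.one_lt q.1)).le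
  rw [norm_mul, norm_cexp_neg_mul, Complex.norm_real, Real.norm_of_nonneg hL]
  exact mul_le_mul_of_nonneg_left (Real.exp_le_exp.2 (neg_le_neg
    (mul_le_mul_of_nonneg_right hs (mul_nonneg (by positivity) hL)))) hL

theorem entireNum_ne_zero_of_one_lt (h : Regular p A θ C) {z₀ : ℂ} (hz : 1 < z₀.re) :
    entireNum p A z₀ ≠ 0 := by
  obtain ⟨m, hm, hne, hlim⟩ := exists_residue h (h.theta_lt.trans hz)
  refine hm (Nat.cast_injective (R := ℂ) ?_)
  rw [Nat.cast_zero]
  refine tendsto_nhds_unique hlim ?_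
  obtain ⟨σ, hσ, hσz⟩ := exists_between hz
  obtain ⟨M, hM⟩ : ∃ M, ∀ z : ℂ, σ ≤ z.re → ‖1 / (z - 1) - lambdaSeries p z‖ ≤ M := by
    refine ⟨1 / (σ - 1) + _, fun z hz => (norm_sub_le _ _).trans
      (add_le_add ?_ (norm_lambdaSeries_le h hσ hz))⟩
    rw [norm_div, norm_one]
    refine one_div_le_one_div_of_le (sub_pos.2 hσ) ?_
    refine le_trans ?_ (Complex.re_le_norm (z - 1))
    simp only [sub_re, one_re]
    linarith
  have h0 : Tendsto (fun z => ‖z - z₀‖ * M) (𝓝[≠] z₀) (𝓝 0) := by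
    have hc : Continuous fun z => ‖z - z₀‖ * M := by fun_prop
    simpa using (hc.tendsto z₀).mono_left nhdsWithin_le_nhds
  refine squeeze_zero_norm' ?_ h0
  filter_upwards [hne, nhdsWithin_le_nhds ((isOpen_lt continuous_const
    Complex.continuous_re).mem_nhds hσz)] with z hz1 hz2
  rw [norm_mul, deriv_entireNum h (hσ.trans hz2), mul_div_assoc, div_self hz1, mul_one]
  exact mul_le_mul_of_nonneg_left (hM z (le_of_lt hz2)) (norm_nonneg _)

theorem lambdaSeries_eq (h : Regular p A θ C) {s : ℂ} (hs : 1 < s.re) :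
    lambdaSeries p s = 1 / (s - 1) - deriv (entireNum p A) s / entireNum p A s := by
  rw [deriv_entireNum h hs, mul_div_assoc, div_self (entireNum_ne_zero_of_one_lt h hs)]
  ring

theorem re_combination_nonneg (h : Regular p A θ C) {σ : ℝ} (hσ : 1 < σ) (t : ℝ) :
    0 ≤ 3 * (lambdaSeries p σ).re + 4 * (lambdaSeries p (σ + t * I)).re +
      (lambdaSeries p (σ + 2 * t * I)).re := by
  have hsum : ∀ s : ℂ, 1 < s.re → (lambdaSeries p s).re = ∑' q : ℕ × ℕ,
      ((Real.log (p q.1) : ℂ) * cexp (-(s * (((q.2 : ℝ) + 1) * Real.log (p q.1) : ℝ)))).re :=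
    fun s hs => Complex.re_tsum (summable_norm_lambda h hs).of_norm
  have hS : ∀ s : ℂ, 1 < s.re → Summable fun q : ℕ × ℕ =>
      ((Real.log (p q.1) : ℂ) * cexp (-(s * (((q.2 : ℝ) + 1) * Real.log (p q.1) : ℝ)))).re :=
    fun s hs => (Complex.hasSum_re (summable_norm_lambda h hs).of_norm.hasSum).summable
  have h1 : 1 < (σ : ℂ).re := by simpa using hσ
  have h2 : 1 < ((σ : ℂ) + t * I).re := by simpa using hσ
  have h3 : 1 < ((σ : ℂ) + 2 * t * I).re := by simpa using hσ
  rw [hsum _ h1, hsum _ h2, hsum _ h3, ← tsum_mul_left, ← tsum_mul_left,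
    ← ((hS _ h1).mul_left 3).tsum_add ((hS _ h2).mul_left 4),
    ← (((hS _ h1).mul_left 3).add ((hS _ h2).mul_left 4)).tsum_add (hS _ h3)]
  refine tsum_nonneg fun q => ?_
  obtain ⟨x, hx⟩ : ∃ x, x = ((q.2 : ℝ) + 1) * Real.log (p q.1) := ⟨_, rfl⟩
  rw [← hx]
  simp only [Complex.exp_re, neg_re, neg_im, mul_re, mul_im, add_re, add_im,
    ofReal_re, ofReal_im, I_re, I_im, re_ofNat, im_ofNat]
  ring_nf
  rw [Real.cos_neg, Real.cos_neg, Real.cos_zero, show x * t * 2 = 2 * (x * t) by ring,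
    Real.cos_two_mul]
  nlinarith [mul_nonneg (mul_nonneg (Real.log_pos (h.one_lt q.1)).le (Real.exp_pos (-(σ * x))).le)
    (sq_nonneg (1 + Real.cos (x * t)))]

theorem tendsto_mul_lambda (h : Regular p A θ C) (t : ℝ) :
    ∃ m : ℕ, (m = 0 → entireNum p A (1 + t * I) ≠ 0) ∧
      Tendsto (fun r : ℝ => r * (lambdaSeries p (((1 + r : ℝ) : ℂ) + t * I)).re) (𝓝[>] 0)
        (𝓝 ((if t = 0 then 1 else 0) - m)) := by
  obtain ⟨m, hm, -, hlim⟩ := exists_residue h
    (show θ < ((1 : ℂ) + t * I).re by simpa using h.theta_lt)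
  refine ⟨m, hm, ?_⟩
  have hmap : Tendsto (fun r : ℝ => (((1 + r : ℝ) : ℂ) + t * I)) (𝓝[>] 0)
      (𝓝[≠] (1 + t * I)) := by
    refine tendsto_nhdsWithin_iff.2 ⟨?_, ?_⟩
    · have hc : Continuous fun r : ℝ => (((1 + r : ℝ) : ℂ) + t * I) := by fun_prop
      simpa using (hc.tendsto 0).mono_left nhdsWithin_le_nhds
    · filter_upwards [self_mem_nhdsWithin] with r (hr : (0 : ℝ) < r) e
      have := congrArg Complex.re e
      simp at this
      linarith
  have h1 : Tendsto (fun r : ℝ => (((r : ℂ) / ((r : ℂ) + t * I)) -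
      ((((1 + r : ℝ) : ℂ) + t * I) - (1 + t * I)) *
        (deriv (entireNum p A) (((1 + r : ℝ) : ℂ) + t * I) /
          entireNum p A (((1 + r : ℝ) : ℂ) + t * I))).re) (𝓝[>] 0)
      (𝓝 ((if t = 0 then 1 else 0) - m)) := by
    have hfirst : Tendsto (fun r : ℝ => (r : ℂ) / ((r : ℂ) + t * I)) (𝓝[>] 0)
        (𝓝 (if t = 0 then 1 else 0)) := by
      split_ifs with ht
      · refine tendsto_const_nhds.congr' ?_
        filter_upwards [self_mem_nhdsWithin] with r (hr : (0 : ℝ) < r)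
        rw [ht, ofReal_zero, zero_mul, add_zero, div_self (ofReal_ne_zero.2 hr.ne')]
      · have hc : ContinuousAt (fun r : ℝ => (r : ℂ) / ((r : ℂ) + t * I)) 0 :=
          ContinuousAt.div (by fun_prop) (by fun_prop) (by simpa using ht)
        simpa using hc.tendsto.mono_left nhdsWithin_le_nhds
    refine ((Complex.continuous_re.tendsto _).comp (hfirst.sub (hlim.comp hmap))).trans ?_
    split_ifs <;> simp
  refine h1.congr' ?_
  filter_upwards [self_mem_nhdsWithin] with r (hr : (0 : ℝ) < r)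
  rw [lambdaSeries_eq h (by simp; linarith), ← re_ofReal_mul]
  congr 1
  push_cast
  rw [show (1 : ℂ) + r + t * I - (1 + t * I) = r by ring,
    show (1 : ℂ) + r + t * I - 1 = r + t * I by ring, mul_sub, mul_one_div]

/-- **No zeros on `re s = 1`.** -/
theorem entireNum_ne_zero (h : Regular p A θ C) {s : ℂ} (hs : 1 ≤ s.re) :
    entireNum p A s ≠ 0 := by
  rcases hs.eq_or_lt with h1 | h1
  swap
  · exact entireNum_ne_zero_of_one_lt h h1
  obtain ⟨t, ht⟩ : ∃ t : ℝ, s = 1 + t * I := ⟨s.im, Complex.ext (by simp [← h1]) (by simp)⟩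
  rw [ht]
  rcases eq_or_ne t 0 with rfl | ht0
  · simp [entireNum_one, h.A_pos.ne']
  obtain ⟨a, -, ha⟩ := tendsto_mul_lambda h 0
  obtain ⟨m, hm, hb⟩ := tendsto_mul_lambda h t
  obtain ⟨k, -, hk⟩ := tendsto_mul_lambda h (2 * t)
  rw [if_pos rfl] at ha
  rw [if_neg ht0] at hb
  rw [if_neg (mul_ne_zero two_ne_zero ht0)] at hk
  have hlim := ((ha.const_mul 3).add (hb.const_mul 4)).add hk
  have hnn : 0 ≤ 3 * (1 - (a : ℝ)) + 4 * (0 - (m : ℝ)) + (0 - (k : ℝ)) := by
    refine ge_of_tendsto hlim ?_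
    filter_upwards [self_mem_nhdsWithin] with r (hr : (0 : ℝ) < r)
    have := mul_nonneg hr.le (re_combination_nonneg h (show 1 < 1 + r by linarith) t)
    push_cast at this ⊢
    simp only [zero_mul, add_zero]
    linarith
  refine hm (Nat.eq_zero_of_not_pos fun hpos => ?_)
  have : (1 : ℝ) ≤ m := by exact_mod_cast hpos
  linarith [(Nat.cast_nonneg a : (0 : ℝ) ≤ a), (Nat.cast_nonneg k : (0 : ℝ) ≤ k)]

theorem continuousOn_logDeriv (h : Regular p A θ C) :
    ContinuousOn (fun s => -(deriv (entireNum p A) s / entireNum p A s)) {s | 1 ≤ s.re} :=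
  fun s (hs : 1 ≤ s.re) =>
    have ha := analyticAt_entireNum h (h.theta_lt.trans_le hs)
    (ha.deriv.continuousAt.div ha.continuousAt (entireNum_ne_zero h hs)).neg.continuousWithinAt

end FA.Beurling
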