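import Fermat.Agent.WienerIkehara.Series
import Mathlib.Analysis.Calculus.ParametricIntegral
import Mathlib.Analysis.Calculus.SmoothSeries
import Mathlib.Analysis.Complex.Convex
import Mathlib.Analysis.Complex.LocallyUniformLimit
import Mathlib.Data.Finsupp.Encodable

/-!
# The zeta function of a system of generalized primes

Generalized integers are finitely supported exponent vectors over real numbers `p i > 1`; if their
count below `x` is `A x + O (x ^ θ)`, then `ζ s - s A / (s - 1)` is holomorphic for `θ < re s`,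
and `ζ' = - Λ ζ` for the series `Λ` over prime powers, by unique factorisation.
-/

set_option autoImplicit false

noncomputable section

namespace FA.Beurling

open MeasureTheory Filter Set Complex
open FA.WienerIkehara (weightSum)
open scoped Topology

/-- The logarithm of the norm of a generalized integer. -/
def logNorm (p : ℕ → ℝ) (e : ℕ →₀ ℕ) : ℝ := e.sum fun i k => (k : ℝ) * Real.log (p i)

/-- The number of generalized integers of norm at most `exp u`. -/
def count (p : ℕ → ℝ) (u : ℝ) : ℝ := Nat.card {e // logNorm p e ≤ u}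

/-- `N x = A x + O (x ^ θ)`. -/
structure Regular (p : ℕ → ℝ) (A θ C : ℝ) : Prop where
  one_lt : ∀ i, 1 < p i
  A_pos : 0 < A
  theta_nonneg : 0 ≤ θ
  theta_lt : θ < 1
  finite : ∀ u, {e | logNorm p e ≤ u}.Finite
  count_le : ∀ u, 0 ≤ u → |count p u - A * Real.exp u| ≤ C * Real.exp (θ * u)

/-- The zeta function. -/
def zeta (p : ℕ → ℝ) (s : ℂ) : ℂ := ∑' e, cexp (-(s * logNorm p e))

/-- The series over the prime powers `(i, k + 1)`. -/
def lambdaSeries (p : ℕ → ℝ) (s : ℂ) : ℂ :=
  ∑' q : ℕ × ℕ, (Real.log (p q.1) : ℂ) * cexp (-(s * (((q.2 : ℝ) + 1) * Real.log (p q.1) : ℝ)))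

/-- The transform of the error term. -/
def errInt (p : ℕ → ℝ) (A : ℝ) (s : ℂ) : ℂ :=
  ∫ u in Ioi (0 : ℝ), ((count p u - A * Real.exp u : ℝ) : ℂ) * cexp (-(s * u))

/-- `(s - 1) ζ s`, continued. -/
def entireNum (p : ℕ → ℝ) (A : ℝ) (s : ℂ) : ℂ := s * (A + (s - 1) * errInt p A s)

variable {p : ℕ → ℝ} {A θ C : ℝ}

theorem logNorm_add (e f : ℕ →₀ ℕ) : logNorm p (e + f) = logNorm p e + logNorm p f :=
  Finsupp.sum_add_index' (fun i => by simp) fun i a b => by push_cast; ring

theorem logNorm_single (i k : ℕ) : logNorm p (Finsupp.single i k) = k * Real.log (p i) :=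
  Finsupp.sum_single_index (by simp)

theorem logNorm_nonneg (h : Regular p A θ C) (e : ℕ →₀ ℕ) : 0 ≤ logNorm p e :=
  Finset.sum_nonneg fun i _ => mul_nonneg (Nat.cast_nonneg _) (Real.log_pos (h.one_lt i)).le

theorem C_nonneg (h : Regular p A θ C) : 0 ≤ C := by
  have := (abs_nonneg _).trans (h.count_le 0 le_rfl)
  simpa using this

theorem weightSum_eq_count (h : Regular p A θ C) (u : ℝ) :
    weightSum (logNorm p) (fun _ => 1) u = count p u := by
  rw [weightSum, tsum_eq_sum (f := fun e => if logNorm p e ≤ u then (1 : ℝ) else 0)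
    (s := (h.finite u).toFinset) fun e he => if_neg fun hle =>
      he ((h.finite u).mem_toFinset.2 hle)]
  rw [Finset.sum_congr rfl fun e he =>
      if_pos (show logNorm p e ≤ u from (h.finite u).mem_toFinset.1 he), Finset.sum_const,
    nsmul_eq_mul, mul_one, count]
  congr 1
  exact (Nat.card_eq_card_finite_toFinset (h.finite u)).symm

theorem count_le_exp (h : Regular p A θ C) {u : ℝ} (hu : 0 ≤ u) :
    count p u ≤ (A + C) * Real.exp u := by
  have h2 : C * Real.exp (θ * u) ≤ C * Real.exp u :=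
    mul_le_mul_of_nonneg_left (Real.exp_le_exp.2 (mul_le_of_le_one_left hu h.theta_lt.le))
      (C_nonneg h)
  linarith [(abs_le.1 (h.count_le u hu)).2]

theorem summable_exp_logNorm (h : Regular p A θ C) {σ : ℝ} (hσ : 1 < σ) :
    Summable fun e => Real.exp (-(σ * logNorm p e)) := by
  obtain ⟨r, hr⟩ : ∃ r, r = Real.exp (1 - σ) := ⟨_, rfl⟩
  have hr1 : r < 1 := hr ▸ Real.exp_lt_one_iff.2 (by linarith)
  have hr0 : 0 ≤ r := hr ▸ (Real.exp_pos _).le
  have hAC : 0 ≤ (A + C) * Real.exp 1 :=
    mul_nonneg (by linarith [h.A_pos, C_nonneg h]) (Real.exp_pos _).le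
  refine summable_of_sum_le (c := (A + C) * Real.exp 1 * ∑' k : ℕ, r ^ k)
    (fun e => (Real.exp_pos _).le) fun F => ?_
  obtain ⟨K, hK⟩ : ∃ K, ∀ e ∈ F, ⌊logNorm p e⌋₊ ∈ Finset.range K :=
    ⟨F.sup (fun e => ⌊logNorm p e⌋₊) + 1, fun e he =>
      Finset.mem_range.2 (Nat.lt_succ_iff.2 (Finset.le_sup (f := fun e => ⌊logNorm p e⌋₊) he))⟩
  rw [← Finset.sum_fiberwise_of_maps_to hK, ← tsum_mul_left]
  refine (Finset.sum_le_sum fun k _ => ?_).trans
    (((summable_geometric_of_lt_one hr0 hr1).mul_left _).sum_le_tsum _ fun k _ =>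
      mul_nonneg hAC (pow_nonneg hr0 k))
  refine (Finset.sum_le_card_nsmul _ _ (Real.exp (-(σ * k))) fun e he => ?_).trans ?_
  · rw [Finset.mem_filter] at he
    have := Nat.floor_le (logNorm_nonneg h e)
    rw [he.2] at this
    exact Real.exp_le_exp.2 (neg_le_neg (mul_le_mul_of_nonneg_left this (by linarith)))
  rw [nsmul_eq_mul]
  calc (((F.filter fun e => ⌊logNorm p e⌋₊ = k).card : ℕ) : ℝ) * Real.exp (-(σ * k))
      ≤ count p (k + 1) * Real.exp (-(σ * k)) := by
        refine mul_le_mul_of_nonneg_right ?_ (Real.exp_pos _).le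
        rw [count, Nat.cast_le]
        refine le_of_le_of_eq (Finset.card_le_card (t := (h.finite (k + 1)).toFinset)
          fun e he => ?_)
          (Nat.card_eq_card_finite_toFinset (h.finite (k + 1))).symm
        rw [Finset.mem_filter] at he
        refine (h.finite _).mem_toFinset.2 ?_
        have := Nat.lt_floor_add_one (logNorm p e)
        rw [he.2] at this
        exact this.le
    _ ≤ (A + C) * Real.exp (k + 1) * Real.exp (-(σ * k)) :=
        mul_le_mul_of_nonneg_right (count_le_exp h (by positivity)) (Real.exp_pos _).le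
    _ = (A + C) * Real.exp 1 * r ^ k := by
        rw [hr, ← Real.exp_nat_mul, mul_assoc, ← Real.exp_add, mul_assoc, ← Real.exp_add]
        ring_nf

theorem summable_mul_exp_logNorm (h : Regular p A θ C) {σ : ℝ} (hσ : 1 < σ) :
    Summable fun e => logNorm p e * Real.exp (-(σ * logNorm p e)) := by
  obtain ⟨τ, hτ, hτσ⟩ := exists_between hσ
  have hd : 0 < σ - τ := sub_pos.2 hτσ
  refine ((summable_exp_logNorm h hτ).mul_left (σ - τ)⁻¹).of_nonneg_of_le
    (fun e => mul_nonneg (logNorm_nonneg h e) (Real.exp_pos _).le) fun e => ?_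
  have h1 : (σ - τ) * logNorm p e ≤ Real.exp ((σ - τ) * logNorm p e) :=
    (le_add_of_nonneg_right zero_le_one).trans (Real.add_one_le_exp _)
  rw [inv_mul_eq_div, le_div_iff₀ hd]
  calc logNorm p e * Real.exp (-(σ * logNorm p e)) * (σ - τ)
      = (σ - τ) * logNorm p e * Real.exp (-(σ * logNorm p e)) := by ring
    _ ≤ Real.exp ((σ - τ) * logNorm p e) * Real.exp (-(σ * logNorm p e)) :=
        mul_le_mul_of_nonneg_right h1 (Real.exp_pos _).le
    _ = Real.exp (-(τ * logNorm p e)) := by rw [← Real.exp_add]; ring_nf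

theorem injective_primePow :
    Function.Injective fun q : ℕ × ℕ => Finsupp.single q.1 (q.2 + 1) := by
  rintro ⟨i, k⟩ ⟨j, l⟩ h
  have h1 := congrArg (fun e : ℕ →₀ ℕ => e i) h
  simp only [Finsupp.single_eq_same, Finsupp.single_apply] at h1
  split_ifs at h1 with hij
  · obtain ⟨rfl⟩ := hij
    simp only [Prod.mk.injEq, true_and]
    omega

theorem summable_primePow (h : Regular p A θ C) {σ : ℝ} (hσ : 1 < σ) :
    Summable fun q : ℕ × ℕ =>
      Real.log (p q.1) * Real.exp (-(σ * (((q.2 : ℝ) + 1) * Real.log (p q.1)))) := by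
  have h1 := (summable_mul_exp_logNorm h hσ).comp_injective injective_primePow
  refine h1.of_nonneg_of_le
    (fun q => mul_nonneg (Real.log_pos (h.one_lt _)).le (Real.exp_pos _).le) fun q => ?_
  simp only [Function.comp_apply, logNorm_single, Nat.cast_add, Nat.cast_one]
  refine mul_le_mul_of_nonneg_right ?_ (Real.exp_pos _).le
  exact le_mul_of_one_le_left (Real.log_pos (h.one_lt _)).le
    (by linarith [(q.2.cast_nonneg : (0 : ℝ) ≤ _)])

theorem norm_cexp_neg_mul (s : ℂ) (x : ℝ) : ‖cexp (-(s * x))‖ = Real.exp (-(s.re * x)) := by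
  rw [Complex.norm_exp]
  simp

theorem summable_norm_lambda (h : Regular p A θ C) {s : ℂ} (hs : 1 < s.re) :
    Summable fun q : ℕ × ℕ => ‖(Real.log (p q.1) : ℂ) *
      cexp (-(s * (((q.2 : ℝ) + 1) * Real.log (p q.1) : ℝ)))‖ :=
  (summable_primePow h hs).congr fun q => by
    rw [norm_mul, norm_cexp_neg_mul, Complex.norm_real,
      Real.norm_of_nonneg (Real.log_pos (h.one_lt _)).le]

theorem summable_norm_zeta (h : Regular p A θ C) {s : ℂ} (hs : 1 < s.re) :
    Summable fun e => ‖cexp (-(s * logNorm p e))‖ :=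
  (summable_exp_logNorm h hs).congr fun _ => (norm_cexp_neg_mul _ _).symm

theorem hasDerivAt_zeta (h : Regular p A θ C) {s : ℂ} (hs : 1 < s.re) :
    HasDerivAt (zeta p) (∑' e, -(logNorm p e : ℂ) * cexp (-(s * logNorm p e))) s := by
  obtain ⟨τ, hτ, hτs⟩ := exists_between hs
  refine hasDerivAt_tsum_of_isPreconnected (t := {z : ℂ | τ < z.re}) (y₀ := s)
    (g := fun e (z : ℂ) => cexp (-(z * logNorm p e)))
    (g' := fun e (z : ℂ) => -(logNorm p e : ℂ) * cexp (-(z * logNorm p e)))
    (summable_mul_exp_logNorm h hτ) (isOpen_lt continuous_const Complex.continuous_re)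
    (convex_halfSpace_re_gt τ).isPreconnected (fun e z _ => ?_) (fun e z hz => ?_) hτs
    (summable_norm_zeta h hs).of_norm hτs
  · refine ((hasDerivAt_id z).mul_const (logNorm p e : ℂ)).neg.cexp.congr_deriv ?_
    simp only [Pi.neg_apply, id_eq, one_mul]
    ring
  · rw [norm_mul, norm_neg, norm_cexp_neg_mul, Complex.norm_real,
      Real.norm_of_nonneg (logNorm_nonneg h e)]
    exact mul_le_mul_of_nonneg_left (Real.exp_le_exp.2 (neg_le_neg
      (mul_le_mul_of_nonneg_right (le_of_lt hz) (logNorm_nonneg h e)))) (logNorm_nonneg h e)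

/-- The prime powers dividing `e`. -/
def divPowers (e : ℕ →₀ ℕ) : Finset (ℕ × ℕ) :=
  e.support.biUnion fun i => (Finset.range (e i)).image fun k => (i, k)

theorem mem_divPowers {e : ℕ →₀ ℕ} {q : ℕ × ℕ} : q ∈ divPowers e ↔ q.2 < e q.1 := by
  simp only [divPowers, Finset.mem_biUnion, Finset.mem_image, Finset.mem_range,
    Finsupp.mem_support_iff]
  exact ⟨fun ⟨i, _, k, hk, he⟩ => he ▸ hk, fun hq => ⟨q.1, by omega, q.2, hq, rfl⟩⟩

theorem sum_divPowers (e : ℕ →₀ ℕ) :
    ∑ q ∈ divPowers e, (Real.log (p q.1) : ℂ) = logNorm p e := by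
  rw [divPowers, Finset.sum_biUnion, logNorm, Finsupp.sum]
  · push_cast
    refine Finset.sum_congr rfl fun i _ => ?_
    rw [Finset.sum_image fun a _ b _ hab => congrArg Prod.snd hab]
    simp
  · intro i _ j _ hij
    simp only [Function.onFun, Finset.disjoint_left, Finset.mem_image]
    rintro _ ⟨a, -, rfl⟩ ⟨b, -, hb⟩
    exact hij (congrArg Prod.fst hb).symm

/-- Factorisations `f + single i (k + 1)` of `e`. -/
def fiberEquiv (e : ℕ →₀ ℕ) :
    {z : (ℕ × ℕ) × (ℕ →₀ ℕ) // z.2 + Finsupp.single z.1.1 (z.1.2 + 1) = e} ≃ divPowers e where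
  toFun z := ⟨z.1.1, mem_divPowers.2 (by
    have := congrArg (fun f : ℕ →₀ ℕ => f z.1.1.1) z.2
    simp only [Finsupp.add_apply, Finsupp.single_eq_same] at this
    omega)⟩
  invFun q := ⟨(q.1, e - Finsupp.single q.1.1 (q.1.2 + 1)), tsub_add_cancel_of_le
    (Finsupp.single_le_iff.2 (mem_divPowers.1 q.2))⟩
  left_inv z := Subtype.ext (Prod.ext rfl (tsub_eq_of_eq_add z.2.symm))
  right_inv _ := rfl

/-- **`∑ log N(e) N(e) ^ (-s) = Λ ζ`**, by unique factorisation. -/
theorem tsum_logNorm_eq (h : Regular p A θ C) {s : ℂ} (hs : 1 < s.re) :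
    ∑' e, (logNorm p e : ℂ) * cexp (-(s * logNorm p e)) = lambdaSeries p s * zeta p s := by
  obtain ⟨F, hF⟩ : ∃ F : (ℕ × ℕ) × (ℕ →₀ ℕ) → ℂ, F = fun z => (Real.log (p z.1.1) : ℂ) *
      cexp (-(s * (((z.1.2 : ℝ) + 1) * Real.log (p z.1.1) : ℝ))) *
        cexp (-(s * logNorm p z.2)) := ⟨_, rfl⟩
  have hsum : Summable F := hF ▸ summable_mul_of_summable_norm (summable_norm_lambda h hs)
    (summable_norm_zeta h hs)
  have hprod : lambdaSeries p s * zeta p s = ∑' z, F z := by
    rw [hF, lambdaSeries, zeta,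
      tsum_mul_tsum_of_summable_norm (summable_norm_lambda h hs) (summable_norm_zeta h hs)]
  rw [hprod, ← (hsum.hasSum.tsum_fiberwise
    fun z => z.2 + Finsupp.single z.1.1 (z.1.2 + 1)).tsum_eq]
  refine tsum_congr fun e => ?_
  have hterm : ∀ z : {z : (ℕ × ℕ) × (ℕ →₀ ℕ) // z.2 + Finsupp.single z.1.1 (z.1.2 + 1) = e},
      F z.1 = (Real.log (p (fiberEquiv e z).1.1) : ℂ) * cexp (-(s * logNorm p e)) := by
    rintro ⟨z, rfl⟩
    rw [hF, logNorm_add, logNorm_single]
    simp only [fiberEquiv, Equiv.coe_fn_mk, mul_assoc, ← Complex.exp_add]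
    congr 2
    push_cast
    ring
  refine (Eq.trans ?_ (tsum_congr hterm).symm).trans rfl
  refine Eq.trans ?_ ((fiberEquiv e).tsum_eq fun q : divPowers e =>
      (Real.log (p q.1.1) : ℂ) * cexp (-(s * logNorm p e))).symm
  rw [tsum_fintype, Finset.sum_coe_sort (divPowers e) fun q : ℕ × ℕ =>
      (Real.log (p q.1) : ℂ) * cexp (-(s * logNorm p e)), ← Finset.sum_mul, sum_divPowers]

theorem deriv_zeta (h : Regular p A θ C) {s : ℂ} (hs : 1 < s.re) :
    HasDerivAt (zeta p) (-(lambdaSeries p s * zeta p s)) s := by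
  refine (hasDerivAt_zeta h hs).congr_deriv ?_
  simp only [neg_mul, tsum_neg, tsum_logNorm_eq h hs]

theorem measurable_count (h : Regular p A θ C) : Measurable (count p) := by
  have hm : Monotone (count p) := fun u v huv => by
    have : Finite {e // logNorm p e ≤ v} := (h.finite v).to_subtype
    refine Nat.cast_le.2 (Nat.card_le_card_of_injective
      (fun e : {e // logNorm p e ≤ u} => (⟨e.1, e.2.trans huv⟩ : {e // logNorm p e ≤ v}))
      fun a b hab => Subtype.ext (Subtype.mk.inj hab))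
  exact hm.measurable

theorem norm_err_le (h : Regular p A θ C) {u : ℝ} (hu : 0 ≤ u) (s : ℂ) :
    ‖((count p u - A * Real.exp u : ℝ) : ℂ) * cexp (-(s * u))‖ ≤
      C * Real.exp (-((s.re - θ) * u)) := by
  rw [norm_mul, norm_cexp_neg_mul, Complex.norm_real, Real.norm_eq_abs]
  refine (mul_le_mul_of_nonneg_right (h.count_le u hu) (Real.exp_pos _).le).trans_eq ?_
  rw [mul_assoc, ← Real.exp_add]
  ring_nf

theorem integrableOn_err (h : Regular p A θ C) {s : ℂ} (hs : θ < s.re) :
    IntegrableOn (fun u : ℝ => ((count p u - A * Real.exp u : ℝ) : ℂ) * cexp (-(s * u)))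
      (Ioi 0) := by
  have hm := measurable_count h
  have hg := (exp_neg_integrableOn_Ioi 0 (sub_pos.2 hs)).const_mul C
  simp only [neg_mul] at hg
  exact hg.mono' (by fun_prop : Measurable _).aestronglyMeasurable
    ((ae_restrict_mem measurableSet_Ioi).mono fun u hu => norm_err_le h (le_of_lt hu) s)

theorem differentiableOn_errInt (h : Regular p A θ C) :
    DifferentiableOn ℂ (errInt p A) {s | θ < s.re} := by
  intro s hs
  refine DifferentiableAt.differentiableWithinAt ?_
  obtain ⟨τ, hτ, hτs⟩ := exists_between (show θ < s.re from hs)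
  obtain ⟨ρ, hρ, hρτ⟩ := exists_between hτ
  have hm := measurable_count h
  have hnhds : {z : ℂ | τ < z.re} ∈ 𝓝 s :=
    (isOpen_lt continuous_const Complex.continuous_re).mem_nhds hτs
  have key := hasDerivAt_integral_of_dominated_loc_of_deriv_le (μ := volume.restrict (Ioi 0))
    (F := fun (z : ℂ) (u : ℝ) => ((count p u - A * Real.exp u : ℝ) : ℂ) * cexp (-(z * u)))
    (F' := fun (z : ℂ) (u : ℝ) =>
      ((count p u - A * Real.exp u : ℝ) : ℂ) * (cexp (-(z * u)) * -(u : ℂ)))
    (bound := fun u => C * (τ - ρ)⁻¹ * Real.exp (-((ρ - θ) * u))) hnhds ?_ ?_ ?_ ?_ ?_ ?_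
  · exact key.2.differentiableAt
  · exact Eventually.of_forall fun z => (by fun_prop : Measurable _).aestronglyMeasurable
  · exact integrableOn_err h hs
  · exact (by fun_prop : Measurable _).aestronglyMeasurable
  · refine (ae_restrict_mem measurableSet_Ioi).mono fun u (hu : 0 < u) z (hz : τ < z.re) => ?_
    rw [← mul_assoc, norm_mul, norm_neg, Complex.norm_real, Real.norm_of_nonneg hu.le]
    refine (mul_le_mul_of_nonneg_right (norm_err_le h hu.le z) hu.le).trans ?_
    have h1 : (τ - ρ) * u ≤ Real.exp ((τ - ρ) * u) :=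
      (le_add_of_nonneg_right zero_le_one).trans (Real.add_one_le_exp _)
    have h2 : Real.exp (-((z.re - θ) * u)) ≤ Real.exp (-((τ - θ) * u)) :=
      Real.exp_le_exp.2 (neg_le_neg (mul_le_mul_of_nonneg_right (by linarith) hu.le))
    have hd : 0 < τ - ρ := sub_pos.2 hρτ
    calc C * Real.exp (-((z.re - θ) * u)) * u ≤ C * Real.exp (-((τ - θ) * u)) * u :=
          mul_le_mul_of_nonneg_right (mul_le_mul_of_nonneg_left h2 (C_nonneg h)) hu.le
      _ = C * (τ - ρ)⁻¹ * (Real.exp (-((τ - θ) * u)) * ((τ - ρ) * u)) := by field_simp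
      _ ≤ C * (τ - ρ)⁻¹ * (Real.exp (-((τ - θ) * u)) * Real.exp ((τ - ρ) * u)) :=
          mul_le_mul_of_nonneg_left (mul_le_mul_of_nonneg_left h1 (Real.exp_pos _).le)
            (mul_nonneg (C_nonneg h) (inv_nonneg.2 hd.le))
      _ = _ := by rw [← Real.exp_add]; ring_nf
  · have hg := (exp_neg_integrableOn_Ioi 0 (sub_pos.2 hρ)).const_mul (C * (τ - ρ)⁻¹)
    simp only [neg_mul] at hg
    exact hg
  · refine ae_of_all _ fun u z _ => ?_
    exact ((((hasDerivAt_id z).mul_const (u : ℂ)).neg).cexp.congr_deriv (by simp)).const_mul _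

theorem differentiableOn_entireNum (h : Regular p A θ C) :
    DifferentiableOn ℂ (entireNum p A) {s | θ < s.re} :=
  differentiableOn_id.mul ((differentiableOn_const _).add
    ((differentiableOn_id.sub (differentiableOn_const _)).mul (differentiableOn_errInt h)))

theorem analyticAt_entireNum (h : Regular p A θ C) {s : ℂ} (hs : θ < s.re) :
    AnalyticAt ℂ (entireNum p A) s :=
  (differentiableOn_entireNum h).analyticAt
    ((isOpen_lt continuous_const Complex.continuous_re).mem_nhds hs)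

theorem entireNum_one (p : ℕ → ℝ) (A : ℝ) : entireNum p A 1 = A := by simp [entireNum]

theorem entireNum_eq (h : Regular p A θ C) {s : ℂ} (hs : 1 < s.re) :
    entireNum p A s = (s - 1) * zeta p s := by
  have hlap := FA.WienerIkehara.laplace_weightSum (x := logNorm p) (w := fun _ => (1 : ℝ))
    (logNorm_nonneg h) (fun _ => zero_le_one)
    (fun σ hσ => by simpa using summable_exp_logNorm h hσ) hs
  simp only [weightSum_eq_count h, Complex.ofReal_one, one_mul] at hlap
  have hs1 : (s - 1 : ℂ) ≠ 0 := fun e => by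
    rw [sub_eq_zero] at e; rw [e, Complex.one_re] at hs; exact lt_irrefl _ hs
  have hs0 : s ≠ 0 := fun e => by rw [e, Complex.zero_re] at hs; linarith
  have hre : (-(s - 1)).re < 0 := by simp; linarith
  have hA : ∫ u in Ioi (0 : ℝ), (A : ℂ) * cexp (-(s - 1) * u) = A / (s - 1) := by
    rw [integral_const_mul, integral_exp_mul_complex_Ioi hre]
    simp only [ofReal_zero, mul_zero, Complex.exp_zero]
    field_simp
  have hI : ∫ u in Ioi (0 : ℝ), (count p u : ℂ) * cexp (-(s * u)) =
      errInt p A s + A / (s - 1) := by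
    rw [errInt, ← hA, ← integral_add (integrableOn_err h (h.theta_lt.trans hs))
      ((integrableOn_exp_mul_complex_Ioi hre 0).const_mul _)]
    refine setIntegral_congr_fun measurableSet_Ioi fun u _ => ?_
    push_cast
    rw [show -(s - 1) * (u : ℂ) = (u : ℂ) + -(s * u) by ring, Complex.exp_add]
    ring
  rw [hI, eq_div_iff hs0] at hlap
  rw [zeta, ← hlap, entireNum]
  field_simp
  ring

end FA.Beurling
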